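import Mathlib

/-!
# Program T (S35), leaf ST/Cross : the Krull step

`R` a Noetherian local ring, `𝔭` an ideal, `w ∈ 𝔪_R` with `𝔪_R ⊆ (w) + 𝔭`.  Then every `a ∉ 𝔭` is
`a = w^i e + p` with `e` a unit and `p ∈ 𝔭` (`R / 𝔭` is a discrete valuation ring with uniformiser
`w`, or a field).
-/

set_option autoImplicit false
set_option linter.unusedSectionVars false

namespace Fermat.Agent.ST

open IsLocalRing

variable {R : Type*} [CommRing R] [IsLocalRing R] [IsNoetherianRing R]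

/-- `𝔪^i + 𝔭 ⊆ (w^i) + 𝔭` -/
theorem stx_pow_sup_le (𝔭 : Ideal R) (w : R)
    (hmax : maximalIdeal R ≤ Ideal.span {w} ⊔ 𝔭) (i : ℕ) :
    maximalIdeal R ^ i ⊔ 𝔭 ≤ Ideal.span {w ^ i} ⊔ 𝔭 := by
  induction i with
  | zero =>
    rw [pow_zero, pow_zero, Ideal.one_eq_top, Ideal.span_singleton_one]
  | succ i ih =>
    refine sup_le ?_ le_sup_right
    have h1 : maximalIdeal R ^ i ≤ Ideal.span {w ^ i} ⊔ 𝔭 := le_trans le_sup_left ih
    calc maximalIdeal R ^ (i + 1) = maximalIdeal R ^ i * maximalIdeal R := pow_succ _ _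
      _ ≤ (Ideal.span {w ^ i} ⊔ 𝔭) * (Ideal.span {w} ⊔ 𝔭) := Ideal.mul_mono h1 hmax
      _ ≤ Ideal.span {w ^ (i + 1)} ⊔ 𝔭 := by
        rw [Ideal.sup_mul, Ideal.mul_sup, Ideal.mul_sup, Ideal.span_singleton_mul_span_singleton,
          ← pow_succ]
        refine sup_le (sup_le le_sup_left ?_) (sup_le ?_ ?_)
        · exact le_trans Ideal.mul_le_right le_sup_right
        · exact le_trans Ideal.mul_le_left le_sup_right
        · exact le_trans Ideal.mul_le_right le_sup_right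

/-- THE KRULL STEP -/
theorem stx_krull (𝔭 : Ideal R) (w : R) (hw : w ∈ maximalIdeal R)
    (hmax : maximalIdeal R ≤ Ideal.span {w} ⊔ 𝔭) (a : R) (ha : a ∉ 𝔭) :
    ∃ (i : ℕ) (e p : R), IsUnit e ∧ p ∈ 𝔭 ∧ a = w ^ i * e + p := by
  classical
  have hK : ∃ i : ℕ, a ∉ maximalIdeal R ^ i ⊔ 𝔭 := by
    by_contra hcon
    push Not at hcon
    apply ha
    have h0 : (⨅ i : ℕ, (maximalIdeal R) ^ i • (⊤ : Submodule R (R ⧸ 𝔭))) = ⊥ :=
      Ideal.iInf_pow_smul_eq_bot_of_isLocalRing _ (maximalIdeal.isMaximal R).ne_top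
    have h1 : Ideal.Quotient.mk 𝔭 a ∈
        (⨅ i : ℕ, (maximalIdeal R) ^ i • (⊤ : Submodule R (R ⧸ 𝔭))) := by
      rw [Submodule.mem_iInf]
      intro i
      obtain ⟨m, hm, p, hp, hmp⟩ := Submodule.mem_sup.mp (hcon i)
      have e : Ideal.Quotient.mk 𝔭 a = m • (Ideal.Quotient.mk 𝔭 1) := by
        rw [← hmp, map_add, Ideal.Quotient.eq_zero_iff_mem.mpr hp, add_zero, map_one,
          Algebra.smul_def, mul_one]
        rfl
      rw [e]
      exact Submodule.smul_mem_smul hm Submodule.mem_top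
    rw [h0, Submodule.mem_bot, Ideal.Quotient.eq_zero_iff_mem] at h1
    exact h1
  have hn0 : Nat.find hK ≠ 0 := by
    intro h0
    have := Nat.find_spec hK
    rw [h0, pow_zero, Ideal.one_eq_top, top_sup_eq] at this
    exact this Submodule.mem_top
  obtain ⟨n, hn⟩ := Nat.exists_eq_succ_of_ne_zero hn0
  have hmem : a ∈ maximalIdeal R ^ n ⊔ 𝔭 := by
    by_contra h
    exact Nat.find_min hK (by rw [hn]; exact Nat.lt_succ_self n) h
  obtain ⟨x, hx, p, hp, hxp⟩ := Submodule.mem_sup.mp (stx_pow_sup_le 𝔭 w hmax n hmem)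
  obtain ⟨c, rfl⟩ := Ideal.mem_span_singleton'.mp hx
  refine ⟨n, c, p, ?_, hp, by rw [← hxp]; ring⟩
  rw [← notMem_maximalIdeal]
  intro hc
  apply Nat.find_spec hK
  rw [hn, ← hxp]
  refine Ideal.add_mem _ (Ideal.mem_sup_left ?_) (Ideal.mem_sup_right hp)
  rw [pow_succ']
  exact Ideal.mul_mem_mul hc (Ideal.pow_mem_pow hw n)

end Fermat.Agent.ST
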