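import Mathlib
import Fermat.Agent.ST.Cross.Krull

/-!
# Program T (S35), leaf ST/Cross : the abstract unit property at a crossing point

`F` a field, `B ⊂ F` a Noetherian local subring, `V` a valuation ring of `F` containing `B`, discrete
with uniformiser `π ∈ B`, which is a localisation of `B`; `w ∈ 𝔪_B` a unit of `V` with
`𝔪_B = w B + (B ∩ 𝔪_V)`; `s` an automorphism of `F` preserving `B`, `V`, with `s π ∈ Bˣ π`
(`StxSide`).  Then `s x / x ∈ Bˣ · (1 + 𝔪_V)` for every `x ∈ Fˣ` (`StxSide.d_mem`).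

With two such sides `(V₁, w)`, `(V₂, u)`, `𝔪_B = (π, u, w)`, `u ∈ 𝔪_{V₁}`, `w ∈ 𝔪_{V₂}`, and `s` a
`Q`-Frobenius lift on `B / 𝔪_B` : every `Φ^Θ`, `Θ = (s - Q)(s - 1)`, is congruent to a unit of `B`
modulo `(1 + 𝔪_{V₁}) ∩ (1 + 𝔪_{V₂})` (`stx_cross_abs`).
-/

set_option autoImplicit false
set_option linter.unusedSectionVars false
set_option linter.unusedVariables false

noncomputable section

namespace Fermat.Agent.ST

open IsLocalRing

variable {F : Type*} [Field F]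

/-! ### the operators on `Fˣ` -/

/-- `f^Θ` for a ring automorphism `s`, `Θ = (s - Q)(s - 1)` -/
def stxTh (Q : ℕ) (s : F ≃+* F) (f : F) : F := s (s f) * f ^ Q / (s f) ^ (Q + 1)

/-- `x ↦ s x / x` on `Fˣ` -/
def stxD (s : F ≃+* F) : Fˣ →* Fˣ :=
  Units.map ((s : F →+* F) : F →* F) / MonoidHom.id Fˣ

/-- `x ↦ s x / x ^ Q` on `Fˣ` -/
def stxDQ (Q : ℕ) (s : F ≃+* F) : Fˣ →* Fˣ :=
  Units.map ((s : F →+* F) : F →* F) / powMonoidHom Q

theorem stx_d_coe (s : F ≃+* F) (x : Fˣ) : ((stxD s x : Fˣ) : F) = s (x : F) / (x : F) := by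
  unfold stxD
  rw [MonoidHom.div_apply, Units.val_div_eq_div_val, Units.coe_map]
  rfl

theorem stx_dq_coe (Q : ℕ) (s : F ≃+* F) (x : Fˣ) :
    ((stxDQ Q s x : Fˣ) : F) = s (x : F) / (x : F) ^ Q := by
  unfold stxDQ
  rw [MonoidHom.div_apply, Units.val_div_eq_div_val, Units.coe_map, powMonoidHom_apply,
    Units.val_pow_eq_pow_val]
  rfl

theorem stx_th_coe (Q : ℕ) (s : F ≃+* F) (x : Fˣ) :
    ((stxDQ Q s (stxD s x) : Fˣ) : F) = stxTh Q s (x : F) := by
  rw [stx_dq_coe, stx_d_coe, stxTh, map_div₀, div_pow]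
  have h1 : (x : F) ≠ 0 := x.ne_zero
  have h2 : s (x : F) ≠ 0 := (map_ne_zero s).mpr h1
  have h3 : s (s (x : F)) ≠ 0 := (map_ne_zero s).mpr h2
  field_simp
  ring

/-! ### units and non-units of a local subring -/

/-- the units of `B` as a subgroup of `Fˣ` -/
def stxU (B : Subring F) : Subgroup Fˣ := B.toSubmonoid.units

theorem stx_mem_U {B : Subring F} {x : Fˣ} :
    x ∈ stxU B ↔ (x : F) ∈ B ∧ ((x⁻¹ : Fˣ) : F) ∈ B :=
  Submonoid.mem_units_iff _ x

/-- `x` is a non-unit of `B` -/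
def StxNon (B : Subring F) (x : F) : Prop := x ∈ B ∧ ∀ y ∈ B, x * y ≠ 1

theorem stx_non_iff {B : Subring F} [IsLocalRing ↥B] {x : F} (hx : x ∈ B) :
    StxNon B x ↔ (⟨x, hx⟩ : ↥B) ∈ maximalIdeal ↥B := by
  rw [mem_maximalIdeal, mem_nonunits_iff, isUnit_iff_exists_inv]
  constructor
  · rintro ⟨-, h⟩ ⟨y, hy⟩
    exact h y y.2 (congrArg Subtype.val hy)
  · intro h
    exact ⟨hx, fun y hy hxy => h ⟨⟨y, hy⟩, Subtype.ext hxy⟩⟩

theorem StxNon.add {B : Subring F} [IsLocalRing ↥B] {x y : F} (hx : StxNon B x) (hy : StxNon B y) :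
    StxNon B (x + y) := by
  rw [stx_non_iff (B.add_mem hx.1 hy.1)]
  exact Ideal.add_mem _ ((stx_non_iff hx.1).mp hx) ((stx_non_iff hy.1).mp hy)

theorem StxNon.mul_left {B : Subring F} {x : F} (hx : StxNon B x) {c : F} (hc : c ∈ B) :
    StxNon B (c * x) :=
  ⟨B.mul_mem hc hx.1, fun y hy h => hx.2 (c * y) (B.mul_mem hc hy) (by rw [← h]; ring)⟩

theorem StxNon.neg {B : Subring F} {x : F} (hx : StxNon B x) : StxNon B (-x) :=
  ⟨B.neg_mem hx.1, fun y hy h => hx.2 (-y) (B.neg_mem hy) (by rw [← h]; ring)⟩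

theorem StxNon.sub {B : Subring F} [IsLocalRing ↥B] {x y : F} (hx : StxNon B x) (hy : StxNon B y) :
    StxNon B (x - y) := by
  rw [sub_eq_add_neg]
  exact hx.add hy.neg

theorem stx_not_non_one {B : Subring F} : ¬ StxNon B (1 : F) :=
  fun h => h.2 1 B.one_mem (one_mul 1)

/-- an element of `B` which is not a non-unit is a unit -/
theorem stx_inv_mem {B : Subring F} {x : F} (hx : x ∈ B) (h : ¬ StxNon B x) :
    x⁻¹ ∈ B ∧ x ≠ 0 := by
  unfold StxNon at h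
  push Not at h
  obtain ⟨y, hy, hxy⟩ := h hx
  have hx0 : x ≠ 0 := by
    rintro rfl
    rw [zero_mul] at hxy
    exact zero_ne_one hxy
  refine ⟨?_, hx0⟩
  have : x⁻¹ = y := by
    rw [← mul_one x⁻¹, ← hxy, inv_mul_cancel_left₀ hx0]
  rw [this]
  exact hy

/-- `1 + 𝔪_B ⊆ Bˣ` -/
theorem stx_unit_of_sub_one {B : Subring F} [IsLocalRing ↥B] {x : F} (hx : StxNon B (x - 1)) :
    x ∈ B ∧ x⁻¹ ∈ B ∧ x ≠ 0 := by
  have hxB : x ∈ B := by
    have := B.add_mem hx.1 B.one_mem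
    rwa [sub_add_cancel] at this
  have hnon : ¬ StxNon B x := by
    intro h
    apply stx_not_non_one (B := B)
    have := h.sub hx
    rwa [sub_sub_cancel] at this
  exact ⟨hxB, stx_inv_mem hxB hnon⟩

/-- the units of `B` congruent to `1` modulo `𝔪_B`, as a subgroup of `Fˣ` -/
def stxU1 (B : Subring F) [IsLocalRing ↥B] : Subgroup Fˣ where
  carrier := {x | StxNon B ((x : F) - 1)}
  one_mem' := by
    show StxNon B (((1 : Fˣ) : F) - 1)
    rw [Units.val_one, sub_self]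
    exact ⟨B.zero_mem, fun y _ h => zero_ne_one (by rw [← h, zero_mul])⟩
  mul_mem' := by
    intro x y hx hy
    show StxNon B (((x * y : Fˣ) : F) - 1)
    have hxB := (stx_unit_of_sub_one hx).1
    have e : ((x * y : Fˣ) : F) - 1 = (x : F) * ((y : F) - 1) + ((x : F) - 1) := by
      rw [Units.val_mul]; ring
    rw [e]
    exact (StxNon.mul_left hy hxB).add hx
  inv_mem' := by
    intro x hx
    show StxNon B (((x⁻¹ : Fˣ) : F) - 1)
    have hxB := stx_unit_of_sub_one hx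
    have e : ((x⁻¹ : Fˣ) : F) - 1 = -((x : F)⁻¹ * ((x : F) - 1)) := by
      rw [Units.val_inv_eq_inv_val]
      have := x.ne_zero
      field_simp
      ring
    rw [e]
    exact (StxNon.mul_left hx hxB.2.1).neg

theorem stx_mem_U1 {B : Subring F} [IsLocalRing ↥B] {x : Fˣ} :
    x ∈ stxU1 B ↔ StxNon B ((x : F) - 1) := Iff.rfl

theorem stx_U1_le {B : Subring F} [IsLocalRing ↥B] : stxU1 B ≤ stxU B := by
  intro x hx
  have h := stx_unit_of_sub_one (stx_mem_U1.mp hx)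
  rw [stx_mem_U, Units.val_inv_eq_inv_val]
  exact ⟨h.1, h.2.1⟩

/-! ### automorphisms and valuation rings -/

theorem stx_val_lt_iff (V : ValuationSubring F) {x : F} (hx : x ≠ 0) :
    V.valuation x < 1 ↔ x⁻¹ ∉ V := by
  rw [V.valuation.val_lt_one_iff hx, ← not_le, V.valuation_le_one_iff]

theorem stx_val_eq_one_iff (V : ValuationSubring F) {x : F} (hx : x ≠ 0) :
    V.valuation x = 1 ↔ x ∈ V ∧ x⁻¹ ∈ V := by
  rw [← V.valuation_le_one_iff, ← V.valuation_le_one_iff, map_inv₀]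
  constructor
  · intro h
    rw [h, inv_one]
    exact ⟨le_refl _, le_refl _⟩
  · rintro ⟨h1, h2⟩
    apply le_antisymm h1
    have h0 : V.valuation x ≠ 0 := (Valuation.ne_zero_iff _).mpr hx
    rwa [inv_le_one₀ (zero_lt_iff.mpr h0)] at h2

/-- an automorphism preserving `V` preserves `𝔪_V` -/
theorem stx_val_lt_map (V : ValuationSubring F) (s : F ≃+* F) (hs : ∀ x : F, s x ∈ V ↔ x ∈ V)
    {x : F} (hx : V.valuation x < 1) : V.valuation (s x) < 1 := by
  by_cases hx0 : x = 0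
  · rw [hx0, map_zero, map_zero]; exact zero_lt_one
  · have hsx0 : s x ≠ 0 := (map_ne_zero s).mpr hx0
    rw [stx_val_lt_iff V hsx0, ← map_inv₀, hs]
    exact (stx_val_lt_iff V hx0).mp hx

/-- an automorphism preserving `V` preserves `Vˣ` -/
theorem stx_val_one_map (V : ValuationSubring F) (s : F ≃+* F) (hs : ∀ x : F, s x ∈ V ↔ x ∈ V)
    {x : F} (hx : V.valuation x = 1) : V.valuation (s x) = 1 := by
  have hx0 : x ≠ 0 := by
    rintro rfl
    rw [map_zero] at hx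
    exact zero_ne_one hx
  have hsx0 : s x ≠ 0 := (map_ne_zero s).mpr hx0
  rw [stx_val_eq_one_iff V hsx0, ← map_inv₀, hs, hs]
  exact (stx_val_eq_one_iff V hx0).mp hx

theorem stx_symm_mem {S : Set F} (s : F ≃+* F) (hs : ∀ x : F, s x ∈ S ↔ x ∈ S) (x : F) :
    s.symm x ∈ S ↔ x ∈ S := by
  rw [← hs (s.symm x), RingEquiv.apply_symm_apply]

/-- an automorphism preserving `B` preserves the non-units of `B` -/
theorem StxNon.map {B : Subring F} (s : F ≃+* F) (hs : ∀ x : F, s x ∈ B ↔ x ∈ B) {x : F}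
    (hx : StxNon B x) : StxNon B (s x) := by
  refine ⟨(hs x).mpr hx.1, fun y hy h => ?_⟩
  apply hx.2 (s.symm y) ((stx_symm_mem (S := (B : Set F)) s hs y).mpr hy)
  apply s.injective
  rw [map_mul, RingEquiv.apply_symm_apply, h, map_one]

/-- a non-unit of `V` lying in `B` is a non-unit of `B` -/
theorem stx_non_of_val_lt {B : Subring F} {V : ValuationSubring F} (hBV : B ≤ V.toSubring) {x : F}
    (hx : x ∈ B) (hv : V.valuation x < 1) : StxNon B x := by
  refine ⟨hx, fun y hy h => ?_⟩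
  have hy1 : V.valuation y ≤ 1 := (V.valuation_le_one_iff y).mpr (hBV hy)
  have : V.valuation (x * y) < 1 := by
    rw [map_mul]
    exact mul_lt_one_of_lt_of_le hv hy1
  rw [h, map_one] at this
  exact lt_irrefl _ this

/-- a unit of `B` is a unit of `V` -/
theorem stx_val_unit {B : Subring F} {V : ValuationSubring F} (hBV : B ≤ V.toSubring) {x : F}
    (hx : x ∈ B) (hx' : x⁻¹ ∈ B) (hx0 : x ≠ 0) : V.valuation x = 1 :=
  (stx_val_eq_one_iff V hx0).mpr ⟨hBV hx, hBV hx'⟩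

/-! ### one side -/

/-- the hypotheses on one component `V` of the crossing : `w` is the local equation of the OTHER
component, a uniformiser of the discrete valuation ring `B / (B ∩ 𝔪_V)`. -/
structure StxSide (B : Subring F) (V : ValuationSubring F) (π w : F) (s : F ≃+* F) : Prop where
  /-- `B ⊆ V` -/
  le : B ≤ V.toSubring
  pi_mem : π ∈ B
  pi_ne : π ≠ 0
  pi_lt : V.valuation π < 1
  /-- `π` is a uniformiser of `V` -/
  pi_unif : ∀ x : F, V.valuation x < 1 → V.valuation x ≤ V.valuation π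
  /-- `V` is discrete -/
  disc : ∀ x : F, ∃ k : ℕ, π ^ k * x ∈ V
  /-- `V` is a localisation of `B` -/
  loc : ∀ y ∈ V, ∃ a b : F, a ∈ B ∧ b ∈ B ∧ V.valuation b = 1 ∧ y * b = a
  w_non : StxNon B w
  w_val : V.valuation w = 1
  /-- `𝔪_B = w B + (B ∩ 𝔪_V)` -/
  gen : ∀ x : F, StxNon B x → ∃ c p : F, c ∈ B ∧ p ∈ B ∧ V.valuation p < 1 ∧ x = c * w + p
  sB : ∀ x : F, s x ∈ B ↔ x ∈ B
  sV : ∀ x : F, s x ∈ V ↔ x ∈ V
  /-- `s π ∈ Bˣ π` -/
  s_pi : ∃ ε : F, ε ∈ B ∧ ε⁻¹ ∈ B ∧ s π = ε * π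

namespace StxSide

variable {B : Subring F} {V : ValuationSubring F} {π w : F} {s : F ≃+* F}

/-- discreteness : every `x ≠ 0` is `π^k ·` a unit of `V` -/
theorem exists_zpow (h : StxSide B V π w s) {x : F} (hx : x ≠ 0) :
    ∃ k : ℤ, V.valuation (π ^ k * x) = 1 := by
  classical
  obtain ⟨N, hN⟩ := h.disc x
  obtain ⟨M, hM⟩ := h.disc x⁻¹
  have hπv : V.valuation π ≠ 0 := (Valuation.ne_zero_iff _).mpr h.pi_ne
  -- the set of `j` with `π^N x / π^j ∉ V` is non-empty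
  have hex : ∃ j : ℕ, ¬ (π ^ N * x / π ^ j ∈ V) := by
    refine ⟨N + M + 1, fun hmem => ?_⟩
    have h1 : π ^ N * x / π ^ (N + M + 1) * (π ^ M * x⁻¹) ∈ V := V.mul_mem _ _ hmem hM
    have e : π ^ N * x / π ^ (N + M + 1) * (π ^ M * x⁻¹) = π⁻¹ := by
      have := h.pi_ne
      field_simp
      ring
    rw [e] at h1
    have h2 : V.valuation π⁻¹ ≤ 1 := (V.valuation_le_one_iff _).mpr h1
    rw [map_inv₀, inv_le_one₀ (zero_lt_iff.mpr hπv)] at h2
    exact absurd h.pi_lt (not_lt.mpr h2)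
  have hj0 : Nat.find hex ≠ 0 := by
    intro h0
    have := Nat.find_spec hex
    rw [h0, pow_zero, div_one] at this
    exact this hN
  obtain ⟨j, hj⟩ := Nat.exists_eq_succ_of_ne_zero hj0
  have hmem : π ^ N * x / π ^ j ∈ V := by
    by_contra hcon
    exact Nat.find_min hex (by rw [hj]; exact Nat.lt_succ_self j) hcon
  have hnot : ¬ (π ^ N * x / π ^ (j + 1) ∈ V) := by
    have := Nat.find_spec hex
    rwa [hj] at this
  refine ⟨(N : ℤ) - (j : ℤ), ?_⟩
  have e : π ^ ((N : ℤ) - (j : ℤ)) * x = π ^ N * x / π ^ j := by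
    rw [zpow_sub₀ h.pi_ne, zpow_natCast, zpow_natCast]
    ring
  rw [e]
  apply le_antisymm ((V.valuation_le_one_iff _).mpr hmem)
  by_contra hlt
  push Not at hlt
  apply hnot
  rw [← V.valuation_le_one_iff]
  have h3 := h.pi_unif _ hlt
  have e2 : π ^ N * x / π ^ (j + 1) = π ^ N * x / π ^ j / π := by
    rw [pow_succ, div_div]
  rw [e2, map_div₀]
  exact div_le_one_of_le₀ h3 zero_le

/-- every `x ≠ 0` is `π^k a / b` with `a, b ∈ B` units of `V` -/
theorem exists_decomp (h : StxSide B V π w s) {x : F} (hx : x ≠ 0) :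
    ∃ (k : ℤ) (a b : F), a ∈ B ∧ b ∈ B ∧ V.valuation a = 1 ∧ V.valuation b = 1 ∧
      x = π ^ k * a / b := by
  obtain ⟨k, hk⟩ := h.exists_zpow hx
  have hmem : π ^ k * x ∈ V := (V.valuation_le_one_iff _).mp hk.le
  obtain ⟨a, b, ha, hb, hbv, hab⟩ := h.loc _ hmem
  have hb0 : b ≠ 0 := by
    rintro rfl
    rw [map_zero] at hbv
    exact zero_ne_one hbv
  have hπk : π ^ k ≠ 0 := zpow_ne_zero k h.pi_ne
  refine ⟨-k, a, b, ha, hb, ?_, hbv, ?_⟩
  · rw [← hab, map_mul, hk, hbv, one_mul]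
  · rw [← hab, zpow_neg]
    field_simp

/-- the prime `B ∩ 𝔪_V` of `B` -/
def prime (h : StxSide B V π w s) : Ideal ↥B :=
  (maximalIdeal ↥V).comap (Subring.inclusion h.le)

theorem mem_prime (h : StxSide B V π w s) (x : ↥B) :
    x ∈ h.prime ↔ V.valuation (x : F) < 1 := by
  rw [prime, Ideal.mem_comap, V.valuation_lt_one_iff]
  rfl

/-- the Krull step : `a ∈ B ∩ Vˣ` is `w^i e + p`, `e ∈ Bˣ`, `p ∈ B ∩ 𝔪_V` -/
theorem exists_pow (h : StxSide B V π w s) [IsLocalRing ↥B] [IsNoetherianRing ↥B] {a : F}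
    (ha : a ∈ B) (hav : V.valuation a = 1) :
    ∃ (i : ℕ) (e p : F), e ∈ B ∧ e⁻¹ ∈ B ∧ e ≠ 0 ∧ p ∈ B ∧ V.valuation p < 1 ∧
      a = w ^ i * e + p := by
  have hw : (⟨w, h.w_non.1⟩ : ↥B) ∈ maximalIdeal ↥B := (stx_non_iff h.w_non.1).mp h.w_non
  have hmax : maximalIdeal ↥B ≤ Ideal.span {(⟨w, h.w_non.1⟩ : ↥B)} ⊔ h.prime := by
    intro x hx
    have hxn : StxNon B (x : F) := (stx_non_iff x.2).mpr hx
    obtain ⟨c, p, hc, hp, hpv, hxe⟩ := h.gen _ hxn
    have e : x = (⟨c, hc⟩ : ↥B) * ⟨w, h.w_non.1⟩ + ⟨p, hp⟩ := Subtype.ext hxe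
    rw [e]
    refine Ideal.add_mem _ (Ideal.mem_sup_left ?_) (Ideal.mem_sup_right ?_)
    · exact Ideal.mul_mem_left _ _ (Ideal.subset_span rfl)
    · rw [h.mem_prime]; exact hpv
  have ha' : (⟨a, ha⟩ : ↥B) ∉ h.prime := by
    rw [h.mem_prime]
    show ¬ V.valuation a < 1
    rw [hav]
    exact lt_irrefl _
  obtain ⟨i, e, p, he, hp, hae⟩ := stx_krull h.prime _ hw hmax _ ha'
  obtain ⟨e', hee'⟩ := isUnit_iff_exists_inv.mp he
  have hee'F : (e : F) * (e' : F) = 1 := congrArg Subtype.val hee'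
  have he0 : (e : F) ≠ 0 := by
    intro h0
    rw [h0, zero_mul] at hee'F
    exact zero_ne_one hee'F
  have hinv : (e : F)⁻¹ = (e' : F) := by
    rw [← mul_one (e : F)⁻¹, ← hee'F, inv_mul_cancel_left₀ he0]
  refine ⟨i, e, p, e.2, by rw [hinv]; exact e'.2, he0, p.2, (h.mem_prime p).mp hp, ?_⟩
  exact congrArg Subtype.val hae

/-- `s w = η w + p` with `η ∈ Bˣ`, `p ∈ B ∩ 𝔪_V` -/
theorem exists_smul_w (h : StxSide B V π w s) [IsLocalRing ↥B] [IsNoetherianRing ↥B] :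
    ∃ η p : F, η ∈ B ∧ η⁻¹ ∈ B ∧ η ≠ 0 ∧ p ∈ B ∧ V.valuation p < 1 ∧ s w = η * w + p := by
  have hswB : s w ∈ B := (h.sB w).mpr h.w_non.1
  have hswv : V.valuation (s w) = 1 := stx_val_one_map V s h.sV h.w_val
  have hswn : StxNon B (s w) := h.w_non.map s h.sB
  obtain ⟨i, e, p, heB, heB', he0, hpB, hpv, hsw⟩ := h.exists_pow hswB hswv
  have hpn : StxNon B p := stx_non_of_val_lt h.le hpB hpv
  have hev : V.valuation e = 1 := stx_val_unit h.le heB heB' he0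
  -- `i ≠ 0`
  have hi0 : i ≠ 0 := by
    rintro rfl
    rw [pow_zero, one_mul] at hsw
    have hen : StxNon B e := by
      have : e = s w - p := by rw [hsw]; ring
      rw [this]
      exact hswn.sub hpn
    exact hen.2 e⁻¹ heB' (mul_inv_cancel₀ he0)
  -- `i < 2`
  have hi2 : i < 2 := by
    by_contra hi
    push Not at hi
    obtain ⟨j, rfl⟩ : ∃ j, i = 2 + j := ⟨i - 2, by omega⟩
    -- `w = s (α) s(w) + s(p₀)`
    have hsymB : ∀ x : F, s.symm x ∈ B ↔ x ∈ B := stx_symm_mem (S := (B : Set F)) s h.sB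
    have hsymV : ∀ x : F, s.symm x ∈ V ↔ x ∈ V := stx_symm_mem (S := (V : Set F)) s h.sV
    have hwn' : StxNon B (s.symm w) := h.w_non.map s.symm hsymB
    obtain ⟨α, p₀, hα, hp₀, hp₀v, hwe⟩ := h.gen _ hwn'
    have hw1 : w = s α * s w + s p₀ := by
      have := congrArg s hwe
      rwa [RingEquiv.apply_symm_apply, map_add, map_mul] at this
    have hsα : s α ∈ B := (h.sB α).mpr hα
    have hsp₀ : V.valuation (s p₀) < 1 := stx_val_lt_map V s h.sV hp₀v
    -- `w (1 - w c) = p'`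
    set c : F := s α * w ^ (1 + j) * e with hc
    have hcB : c ∈ B :=
      B.mul_mem (B.mul_mem hsα (B.pow_mem h.w_non.1 _)) heB
    have hkey : w * (1 - w ^ 0 * c) = s α * p + s p₀ := by
      rw [pow_zero, one_mul, hc]
      have e1 : w * (1 - s α * w ^ (1 + j) * e) = w - s α * (w ^ (2 + j) * e) := by ring
      rw [e1]
      have e2 : w ^ (2 + j) * e = s w - p := by rw [hsw]; ring
      rw [e2]
      nth_rewrite 1 [hw1]
      ring
    rw [pow_zero, one_mul] at hkey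
    have hcn : StxNon B c := by
      have : c = (s α * w ^ j * e) * w := by rw [hc]; ring
      rw [this]
      exact h.w_non.mul_left (B.mul_mem (B.mul_mem hsα (B.pow_mem h.w_non.1 _)) heB)
    have h1c : V.valuation (1 - c) = 1 := by
      have hu := stx_unit_of_sub_one (B := B) (x := 1 - c) (by
        have : 1 - c - 1 = -c := by ring
        rw [this]
        exact hcn.neg)
      exact stx_val_unit h.le hu.1 hu.2.1 hu.2.2
    have hlhs : V.valuation (w * (1 - c)) = 1 := by rw [map_mul, h.w_val, h1c, one_mul]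
    have hrhs : V.valuation (s α * p + s p₀) < 1 := by
      refine Valuation.map_add_lt _ ?_ hsp₀
      rw [map_mul, mul_comm]
      exact mul_lt_one_of_lt_of_le hpv ((V.valuation_le_one_iff _).mpr (h.le hsα))
    rw [hkey] at hlhs
    rw [hlhs] at hrhs
    exact lt_irrefl _ hrhs
  have hi1 : i = 1 := by omega
  subst hi1
  rw [pow_one] at hsw
  exact ⟨e, p, heB, heB', he0, hpB, hpv, by rw [hsw]; ring⟩

theorem _root_.Fermat.Agent.ST.stx_d_apply (s : F ≃+* F) (x : Fˣ) :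
    stxD s x = Units.map ((s : F →+* F) : F →* F) x / x := rfl

theorem _root_.Fermat.Agent.ST.stx_dq_apply (Q : ℕ) (s : F ≃+* F) (x : Fˣ) :
    stxDQ Q s x = Units.map ((s : F →+* F) : F →* F) x / x ^ Q := rfl

/-- `s` preserves `1 + 𝔪_V` -/
theorem map_principal (V : ValuationSubring F) (s : F ≃+* F) (hs : ∀ x : F, s x ∈ V ↔ x ∈ V)
    {m : Fˣ} (hm : m ∈ V.principalUnitGroup) :
    Units.map ((s : F →+* F) : F →* F) m ∈ V.principalUnitGroup := by
  rw [ValuationSubring.mem_principalUnitGroup_iff] at hm ⊢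
  have := stx_val_lt_map V s hs hm
  rwa [map_sub, map_one] at this

/-- `s` preserves `Bˣ` -/
theorem map_U (s : F ≃+* F) (hs : ∀ x : F, s x ∈ B ↔ x ∈ B)
    {e : Fˣ} (he : e ∈ stxU B) : Units.map ((s : F →+* F) : F →* F) e ∈ stxU B := by
  rw [stx_mem_U] at he ⊢
  refine ⟨(hs _).mpr he.1, ?_⟩
  rw [← map_inv]
  exact (hs _).mpr he.2

/-- `s x / x ∈ Bˣ (1 + 𝔪_V)` for every `x ∈ Fˣ` -/
theorem d_mem (h : StxSide B V π w s) [IsLocalRing ↥B] [IsNoetherianRing ↥B] (x : Fˣ) :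
    stxD s x ∈ stxU B ⊔ V.principalUnitGroup := by
  set W : Subgroup Fˣ := stxU B ⊔ V.principalUnitGroup with hW
  set K : Subgroup Fˣ := W.comap (stxD s) with hK
  have hU : stxU B ≤ K := by
    intro e he
    rw [hK, Subgroup.mem_comap, stx_d_apply]
    exact Subgroup.mem_sup_left (Subgroup.div_mem _ (map_U s h.sB he) he)
  have hP : V.principalUnitGroup ≤ K := by
    intro m hm
    rw [hK, Subgroup.mem_comap, stx_d_apply]
    exact Subgroup.mem_sup_right (Subgroup.div_mem _ (map_principal V s h.sV hm) hm)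
  have hπ : Units.mk0 π h.pi_ne ∈ K := by
    rw [hK, Subgroup.mem_comap]
    apply Subgroup.mem_sup_left
    obtain ⟨ε, hε, hε', hsπ⟩ := h.s_pi
    have e : ((stxD s (Units.mk0 π h.pi_ne) : Fˣ) : F) = ε := by
      rw [stx_d_coe, Units.val_mk0, hsπ, mul_div_assoc, div_self h.pi_ne, mul_one]
    rw [stx_mem_U, Units.val_inv_eq_inv_val, e]
    exact ⟨hε, hε'⟩
  have hw0 : w ≠ 0 := by
    intro h0
    have := h.w_val
    rw [h0, map_zero] at this
    exact zero_ne_one this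
  have hw : Units.mk0 w hw0 ∈ K := by
    rw [hK, Subgroup.mem_comap, hW, Subgroup.mem_sup]
    obtain ⟨η, p, hη, hη', hη0, hpB, hpv, hsw⟩ := h.exists_smul_w
    have hηU : Units.mk0 η hη0 ∈ stxU B := by
      rw [stx_mem_U, Units.val_inv_eq_inv_val, Units.val_mk0]
      exact ⟨hη, hη'⟩
    refine ⟨Units.mk0 η hη0, hηU, stxD s (Units.mk0 w hw0) / Units.mk0 η hη0, ?_,
      mul_div_cancel _ _⟩
    rw [ValuationSubring.mem_principalUnitGroup_iff, Units.val_div_eq_div_val, stx_d_coe,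
      Units.val_mk0, Units.val_mk0, hsw]
    have e : (η * w + p) / w / η - 1 = p / (w * η) := by
      field_simp
      ring
    rw [e, map_div₀, map_mul, h.w_val, stx_val_unit h.le hη hη' hη0, one_mul, div_one]
    exact hpv
  have ha : ∀ (a : F) (ha0 : a ≠ 0), a ∈ B → V.valuation a = 1 → Units.mk0 a ha0 ∈ K := by
    intro a ha0 haB hav
    obtain ⟨i, e, p, heB, heB', he0, hpB, hpv, hae⟩ := h.exists_pow haB hav
    have heU : Units.mk0 e he0 ∈ stxU B := by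
      rw [stx_mem_U, Units.val_inv_eq_inv_val, Units.val_mk0]
      exact ⟨heB, heB'⟩
    set m : Fˣ := Units.mk0 a ha0 / (Units.mk0 w hw0 ^ i * Units.mk0 e he0) with hm
    have hmP : m ∈ V.principalUnitGroup := by
      rw [ValuationSubring.mem_principalUnitGroup_iff, hm, Units.val_div_eq_div_val, Units.val_mul,
        Units.val_pow_eq_pow_val, Units.val_mk0, Units.val_mk0, Units.val_mk0]
      have e1 : a / (w ^ i * e) - 1 = p / (w ^ i * e) := by
        have : w ^ i ≠ 0 := pow_ne_zero i hw0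
        rw [hae]
        field_simp
        ring
      rw [e1, map_div₀, map_mul, map_pow, h.w_val, one_pow, stx_val_unit h.le heB heB' he0,
        one_mul, div_one]
      exact hpv
    have e2 : Units.mk0 a ha0 = Units.mk0 w hw0 ^ i * Units.mk0 e he0 * m := by
      rw [hm, mul_div_cancel]
    rw [e2]
    exact K.mul_mem (K.mul_mem (K.pow_mem hw i) (hU heU)) (hP hmP)
  have hall : x ∈ K := by
    obtain ⟨k, a, b, haB, hbB, hav, hbv, hx⟩ := h.exists_decomp x.ne_zero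
    have ha0 : a ≠ 0 := by
      rintro rfl
      rw [map_zero] at hav
      exact zero_ne_one hav
    have hb0 : b ≠ 0 := by
      rintro rfl
      rw [map_zero] at hbv
      exact zero_ne_one hbv
    have e : x = Units.mk0 π h.pi_ne ^ k * Units.mk0 a ha0 / Units.mk0 b hb0 := by
      apply Units.ext
      rw [Units.val_div_eq_div_val, Units.val_mul, Units.val_zpow_eq_zpow_val, Units.val_mk0,
        Units.val_mk0, Units.val_mk0]
      exact hx
    rw [e]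
    exact K.div_mem (K.mul_mem (K.zpow_mem hπ k) (ha a ha0 haB hav)) (ha b hb0 hbB hbv)
  exact hall

end StxSide

/-! ### the Frobenius step and the gluing -/

/-- `y ∈ Bˣ (1 + 𝔪_V)` ⟹ `s y / y^Q ∈ (1 + 𝔪_B)(1 + 𝔪_V)` for a `Q`-Frobenius lift `s` -/
theorem stx_dq_mem {B : Subring F} [IsLocalRing ↥B] {V : ValuationSubring F} {s : F ≃+* F}
    (hsB : ∀ x : F, s x ∈ B ↔ x ∈ B) (hsV : ∀ x : F, s x ∈ V ↔ x ∈ V) (Q : ℕ)
    (hfrob : ∀ b ∈ B, StxNon B (s b - b ^ Q)) {y : Fˣ}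
    (hy : y ∈ stxU B ⊔ V.principalUnitGroup) :
    stxDQ Q s y ∈ stxU1 B ⊔ V.principalUnitGroup := by
  obtain ⟨e, he, m, hm, rfl⟩ := Subgroup.mem_sup.mp hy
  rw [map_mul]
  refine Subgroup.mul_mem_sup ?_ ?_
  · rw [stx_mem_U1, stx_dq_coe]
    have he' := stx_mem_U.mp he
    rw [Units.val_inv_eq_inv_val] at he'
    have e1 : s (e : F) / (e : F) ^ Q - 1 = ((e : F)⁻¹) ^ Q * (s (e : F) - (e : F) ^ Q) := by
      have h0 : (e : F) ^ Q ≠ 0 := pow_ne_zero Q e.ne_zero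
      rw [inv_pow, div_sub_one h0, div_eq_inv_mul]
    rw [e1]
    exact (hfrob _ he'.1).mul_left (B.pow_mem he'.2 Q)
  · rw [stx_dq_apply]
    exact Subgroup.div_mem _ (StxSide.map_principal V s hsV hm) (Subgroup.pow_mem _ hm Q)

/-- THE ABSTRACT UNIT PROPERTY AT A CROSSING POINT -/
theorem stx_cross_abs (B : Subring F) [IsLocalRing ↥B] [IsNoetherianRing ↥B]
    (V₁ V₂ : ValuationSubring F) (π u w : F) (s : F ≃+* F) (Q : ℕ)
    (h₁ : StxSide B V₁ π w s) (h₂ : StxSide B V₂ π u s)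
    (hu₁ : V₁.valuation u < 1) (hw₂ : V₂.valuation w < 1)
    (hgen : ∀ x : F, StxNon B x →
      ∃ α β γ : F, α ∈ B ∧ β ∈ B ∧ γ ∈ B ∧ x = α * π + β * u + γ * w)
    (hfrob : ∀ b ∈ B, StxNon B (s b - b ^ Q))
    (Φ : F) (hΦ : Φ ≠ 0) :
    ∃ ψ : F, ψ ≠ 0 ∧ ψ ∈ B ∧ ψ⁻¹ ∈ B ∧
      V₁.valuation (stxTh Q s Φ / ψ - 1) < 1 ∧ V₂.valuation (stxTh Q s Φ / ψ - 1) < 1 := by
  set x : Fˣ := Units.mk0 Φ hΦ with hx
  set z : Fˣ := stxDQ Q s (stxD s x) with hz
  have hzF : (z : F) = stxTh Q s Φ := by rw [hz, stx_th_coe, hx, Units.val_mk0]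
  have hz₁ : z ∈ stxU1 B ⊔ V₁.principalUnitGroup :=
    stx_dq_mem h₁.sB h₁.sV Q hfrob (h₁.d_mem x)
  have hz₂ : z ∈ stxU1 B ⊔ V₂.principalUnitGroup :=
    stx_dq_mem h₂.sB h₂.sV Q hfrob (h₂.d_mem x)
  obtain ⟨ψ₁, hψ₁, m₁, hm₁, e₁⟩ := Subgroup.mem_sup.mp hz₁
  obtain ⟨ψ₂, hψ₂, m₂, hm₂, e₂⟩ := Subgroup.mem_sup.mp hz₂
  rw [stx_mem_U1] at hψ₁ hψ₂
  rw [ValuationSubring.mem_principalUnitGroup_iff] at hm₁ hm₂
  have hψ₁B := (stx_unit_of_sub_one hψ₁).1
  have hψ₂B := (stx_unit_of_sub_one hψ₂).1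
  have hn : StxNon B ((ψ₂ : F) - (ψ₁ : F)) := by
    have : (ψ₂ : F) - (ψ₁ : F) = ((ψ₂ : F) - 1) - ((ψ₁ : F) - 1) := by ring
    rw [this]
    exact hψ₂.sub hψ₁
  obtain ⟨α, β, γ, hα, hβ, hγ, hne⟩ := hgen _ hn
  have hπ₁ : V₁.valuation π < 1 := h₁.pi_lt
  have hle : ∀ (V : ValuationSubring F), B ≤ V.toSubring → ∀ c ∈ B, V.valuation c ≤ 1 :=
    fun V hV c hc => (V.valuation_le_one_iff _).mpr (hV hc)
  set p₁ : F := α * π + β * u with hp₁
  set p₂ : F := γ * w with hp₂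
  have hp₁B : p₁ ∈ B := B.add_mem (B.mul_mem hα h₁.pi_mem) (B.mul_mem hβ h₂.w_non.1)
  have hp₂B : p₂ ∈ B := B.mul_mem hγ h₁.w_non.1
  have hp₁v : V₁.valuation p₁ < 1 := by
    refine Valuation.map_add_lt _ ?_ ?_
    · rw [map_mul, mul_comm]; exact mul_lt_one_of_lt_of_le hπ₁ (hle V₁ h₁.le α hα)
    · rw [map_mul, mul_comm]; exact mul_lt_one_of_lt_of_le hu₁ (hle V₁ h₁.le β hβ)
  have hp₂v : V₂.valuation p₂ < 1 := by
    rw [hp₂, map_mul, mul_comm]; exact mul_lt_one_of_lt_of_le hw₂ (hle V₂ h₂.le γ hγ)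
  set ψ : F := (ψ₁ : F) + p₁ with hψ
  have hψ' : ψ = (ψ₂ : F) - p₂ := by
    rw [hψ, hp₂, hp₁]
    linear_combination (-1 : F) * hne
  have hψn : StxNon B (ψ - 1) := by
    have : ψ - 1 = ((ψ₁ : F) - 1) + p₁ := by rw [hψ]; ring
    rw [this]
    exact hψ₁.add (stx_non_of_val_lt h₁.le hp₁B hp₁v)
  obtain ⟨hψB, hψB', hψ0⟩ := stx_unit_of_sub_one hψn
  have hψv₁ : V₁.valuation ψ = 1 := stx_val_unit h₁.le hψB hψB' hψ0
  have hψv₂ : V₂.valuation ψ = 1 := stx_val_unit h₂.le hψB hψB' hψ0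
  refine ⟨ψ, hψ0, hψB, hψB', ?_, ?_⟩
  · have e : stxTh Q s Φ / ψ - 1 = ((ψ₁ : F) * ((m₁ : F) - 1) - p₁) / ψ := by
      rw [← hzF, ← e₁, Units.val_mul]
      field_simp
      rw [hψ]
      ring
    rw [e, map_div₀, hψv₁, div_one]
    refine lt_of_le_of_lt (Valuation.map_sub _ _ _) (max_lt ?_ hp₁v)
    rw [map_mul, mul_comm]
    exact mul_lt_one_of_lt_of_le hm₁ (hle V₁ h₁.le _ hψ₁B)
  · have e : stxTh Q s Φ / ψ - 1 = ((ψ₂ : F) * ((m₂ : F) - 1) + p₂) / ψ := by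
      rw [← hzF, ← e₂, Units.val_mul]
      field_simp
      rw [hψ']
      ring
    rw [e, map_div₀, hψv₂, div_one]
    refine Valuation.map_add_lt _ ?_ hp₂v
    rw [map_mul, mul_comm]
    exact mul_lt_one_of_lt_of_le hm₂ (hle V₂ h₂.le _ hψ₂B)

end Fermat.Agent.ST
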