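import Mathlib
import Fermat.Agent.ST.Defs
import Fermat.Agent.SS.Loc.GermNF
import Fermat.Agent.ST.Cross.Abs

/-!
# Program T (S35), leaf ST/Cross : `σ`-stability of `P`, `𝔫`, `P_𝔫` at a `σ`-fixed closed point with
residue field `A / ϖ`, and the Frobenius congruence `σ b ≡ b^Q mod 𝔫 P_𝔫`
-/

set_option autoImplicit false
set_option linter.unusedSectionVars false
set_option linter.unusedVariables false

noncomputable section

namespace Fermat.Agent.ST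

open Polynomial IntermediateField AlgebraicCurve Fermat.Agent.S18 Fermat.Agent.SS IsLocalRing

universe u

variable {A : Type*} [CommRing A] [IsDomain A] [IsDiscreteValuationRing A] [CharZero A]
variable {L : Type*} [Field L] [Algebra A L] [IsFractionRing A L]
variable {F : Type u} [Field F] [Algebra A F] [Algebra L F] [IsScalarTower A L F]
variable {ϖ : A}

/-! ### `σ P = P` -/

/-- a semilinear automorphism fixing `t` and preserving `A` preserves `A[t]` -/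
theorem stx_chart_smul (γ : SemilinearAut L F) {t : F} (hγt : γ • t = t)
    (hγA : ∀ a : A, ∃ b : A, γ • algebraMap A F a = algebraMap A F b) {x : F}
    (hx : x ∈ s18tChart A t) : γ • x ∈ s18tChart A t := by
  unfold s18tChart at hx ⊢
  induction hx using Algebra.adjoin_induction with
  | mem x hx =>
    rw [Set.mem_singleton_iff] at hx
    subst hx
    rw [hγt]
    exact Algebra.subset_adjoin rfl
  | algebraMap a =>
    obtain ⟨b, hb⟩ := hγA a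
    rw [hb]
    exact Subalgebra.algebraMap_mem _ _
  | add x y _ _ hx hy => rw [smul_add]; exact add_mem hx hy
  | mul x y _ _ hx hy => rw [smul_mul']; exact mul_mem hx hy

/-- a semilinear automorphism fixing `t` and preserving `A` preserves `P` -/
theorem stx_int_smul (γ : SemilinearAut L F) {t : F} (hγt : γ • t = t)
    (hγA : ∀ a : A, ∃ b : A, γ • algebraMap A F a = algebraMap A F b) {x : F}
    (hx : x ∈ s18tInt A t) : γ • x ∈ s18tInt A t := by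
  rw [mem_s18tInt] at hx ⊢
  let φ : ↥(s18tChart A t) →+* ↥(s18tChart A t) :=
    { toFun := fun y => ⟨γ • (y : F), stx_chart_smul γ hγt hγA y.2⟩
      map_one' := Subtype.ext (smul_one γ)
      map_mul' := fun a b => Subtype.ext (smul_mul' γ (a : F) (b : F))
      map_zero' := Subtype.ext (smul_zero γ)
      map_add' := fun a b => Subtype.ext (smul_add γ (a : F) (b : F)) }
  exact IsIntegral.map_of_comp_eq φ ((SemilinearAut.toRingAut γ : F ≃+* F) : F →+* F)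
    (RingHom.ext fun y => rfl) hx

variable {V₁ V₂ : ValuationSubring F} {Q : ℕ} {σ : SemilinearAut L F} {t : F}

theorem stx_inv_t (hσ : StFrob ϖ t V₁ V₂ Q σ) : σ⁻¹ • t = t := by
  rw [inv_smul_eq_iff, hσ.t_fixed]

theorem stx_int_of_smul (hσ : StFrob ϖ t V₁ V₂ Q σ) {x : F} (hx : x ∈ s18tInt A t) :
    σ • x ∈ s18tInt A t :=
  stx_int_smul σ hσ.t_fixed (fun a => (hσ.base a).elim fun b hb => ⟨_, hb⟩) hx

theorem stx_int_of_inv_smul (hσ : StFrob ϖ t V₁ V₂ Q σ) {x : F} (hx : x ∈ s18tInt A t) :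
    σ⁻¹ • x ∈ s18tInt A t :=
  stx_int_smul σ⁻¹ (stx_inv_t hσ) hσ.base_inv hx

/-- `σ P = P` -/
theorem stx_int_iff (hσ : StFrob ϖ t V₁ V₂ Q σ) (x : F) :
    σ • x ∈ s18tInt A t ↔ x ∈ s18tInt A t := by
  refine ⟨fun h => ?_, stx_int_of_smul hσ⟩
  have := stx_int_of_inv_smul hσ h
  rwa [inv_smul_smul] at this

/-! ### `σ P_𝔫 = P_𝔫` -/

variable {𝔫 : Ideal ↥(s18tInt A t)}

theorem stx_mem_of_smul (hσ : StFrob ϖ t V₁ V₂ Q σ) (hfix : StPull t σ 𝔫 𝔫)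
    (p : ↥(s18tInt A t)) :
    (⟨σ • (p : F), stx_int_of_smul hσ p.2⟩ : ↥(s18tInt A t)) ∈ 𝔫 ↔ p ∈ 𝔫 := by
  rw [hfix p]
  exact ⟨fun h => ⟨_, h⟩, fun ⟨_, h⟩ => h⟩

theorem stx_loc_of_smul [𝔫.IsPrime] (hσ : StFrob ϖ t V₁ V₂ Q σ) (hfix : StPull t σ 𝔫 𝔫) {x : F}
    (hx : x ∈ ssLocRing t 𝔫) : σ • x ∈ ssLocRing t 𝔫 := by
  obtain ⟨s, hs, hsx⟩ := hx
  refine ⟨⟨σ • (s : F), stx_int_of_smul hσ s.2⟩, fun h => hs ((stx_mem_of_smul hσ hfix s).mp h), ?_⟩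
  show σ • (s : F) * σ • x ∈ s18tInt A t
  rw [← smul_mul']
  exact stx_int_of_smul hσ hsx

theorem stx_loc_of_inv_smul [𝔫.IsPrime] (hσ : StFrob ϖ t V₁ V₂ Q σ) (hfix : StPull t σ 𝔫 𝔫) {x : F}
    (hx : x ∈ ssLocRing t 𝔫) : σ⁻¹ • x ∈ ssLocRing t 𝔫 := by
  obtain ⟨s, hs, hsx⟩ := hx
  refine ⟨⟨σ⁻¹ • (s : F), stx_int_of_inv_smul hσ s.2⟩, fun h => hs ?_, ?_⟩
  · have h1 := (stx_mem_of_smul hσ hfix _).mpr h
    have e : (⟨σ • ((⟨σ⁻¹ • (s : F), stx_int_of_inv_smul hσ s.2⟩ : ↥(s18tInt A t)) : F),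
        stx_int_of_smul hσ (stx_int_of_inv_smul hσ s.2)⟩ : ↥(s18tInt A t)) = s :=
      Subtype.ext (smul_inv_smul σ (s : F))
    rwa [e] at h1
  · show σ⁻¹ • (s : F) * σ⁻¹ • x ∈ s18tInt A t
    rw [← smul_mul']
    exact stx_int_of_inv_smul hσ hsx

/-- `σ P_𝔫 = P_𝔫` -/
theorem stx_loc_iff [𝔫.IsPrime] (hσ : StFrob ϖ t V₁ V₂ Q σ) (hfix : StPull t σ 𝔫 𝔫) (x : F) :
    σ • x ∈ ssLocRing t 𝔫 ↔ x ∈ ssLocRing t 𝔫 := by
  refine ⟨fun h => ?_, stx_loc_of_smul hσ hfix⟩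
  have := stx_loc_of_inv_smul hσ hfix h
  rwa [inv_smul_smul] at this

/-- the non-units of `P_𝔫` are `𝔫 P_𝔫` -/
theorem stx_non_loc_iff [𝔫.IsPrime] (x : F) : StxNon (ssLocRing t 𝔫) x ↔ SsInMax t 𝔫 x := by
  constructor
  · intro h
    exact (ssl_mem_maximalIdeal t 𝔫 ⟨x, h.1⟩).mp ((stx_non_iff h.1).mp h)
  · intro h
    exact (stx_non_iff (B := ssLocRing t 𝔫) h.inLoc).mpr
      ((ssl_mem_maximalIdeal t 𝔫 ⟨x, h.inLoc⟩).mpr h)

/-! ### `σ ϖ ∈ Aˣ ϖ` -/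

theorem stx_dvd_smul_pi (hϖ : Irreducible ϖ) (γ : SemilinearAut L F)
    (hγ : ∀ a : A, ∃ b : A, γ • algebraMap A F a = algebraMap A F b)
    (hγ' : ∀ a : A, ∃ b : A, γ⁻¹ • algebraMap A F a = algebraMap A F b) :
    ∃ e : A, γ • algebraMap A F ϖ = algebraMap A F (ϖ * e) := by
  have hinj := ssl_algebraMap_injective A L F
  obtain ⟨a', ha'⟩ := hγ ϖ
  by_cases hdvd : ϖ ∣ a'
  · obtain ⟨e, rfl⟩ := hdvd
    exact ⟨e, ha'⟩
  · exfalso
    have hunit : IsUnit a' := by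
      rw [← IsLocalRing.notMem_maximalIdeal, hϖ.maximalIdeal_eq, Ideal.mem_span_singleton]
      exact hdvd
    obtain ⟨c, hc⟩ := isUnit_iff_exists_inv.mp hunit
    obtain ⟨c', hc'⟩ := hγ' c
    have h1 : algebraMap A F ϖ * algebraMap A F c' = 1 := by
      have : γ⁻¹ • (γ • algebraMap A F ϖ * algebraMap A F c) = 1 := by
        rw [ha', ← map_mul, hc, map_one, smul_one]
      rwa [smul_mul', inv_smul_smul, hc'] at this
    rw [← map_mul, ← map_one (algebraMap A F)] at h1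
    exact hϖ.not_isUnit (isUnit_iff_exists_inv.mpr ⟨c', hinj h1⟩)

/-- `σ ϖ = e ϖ` with `e ∈ Aˣ` -/
theorem stx_smul_pi (hϖ : Irreducible ϖ) (hσ : StFrob ϖ t V₁ V₂ Q σ) :
    ∃ e e' : A, e * e' = 1 ∧
      σ • algebraMap A F ϖ = algebraMap A F e * algebraMap A F ϖ := by
  have hinj := ssl_algebraMap_injective A L F
  have hbase : ∀ a : A, ∃ b : A, σ • algebraMap A F a = algebraMap A F b :=
    fun a => (hσ.base a).elim fun b hb => ⟨_, hb⟩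
  obtain ⟨e, he⟩ := stx_dvd_smul_pi hϖ σ hbase hσ.base_inv
  obtain ⟨e', he'⟩ := stx_dvd_smul_pi hϖ σ⁻¹ hσ.base_inv (by rw [inv_inv]; exact hbase)
  obtain ⟨e'', he''⟩ := hbase e'
  refine ⟨e, e'', ?_, by rw [he, map_mul, mul_comm]⟩
  have h1 : algebraMap A F ϖ = algebraMap A F (ϖ * e) * algebraMap A F e'' := by
    have : σ • (σ⁻¹ • algebraMap A F ϖ) = algebraMap A F ϖ := smul_inv_smul _ _
    rw [he', map_mul, smul_mul', he, he''] at this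
    exact this.symm
  rw [← map_mul] at h1
  have h2 := hinj h1
  have h3 : ϖ * 1 = ϖ * (e * e'') := by rw [mul_one, ← mul_assoc]; exact h2
  exact (mul_left_cancel₀ hϖ.ne_zero h3).symm

/-! ### the Frobenius congruence -/

/-- `σ p ≡ p^Q mod 𝔫` on `P` -/
theorem stx_frob_int (hσ : StFrob ϖ t V₁ V₂ Q σ) (hres : StRes t 𝔫) (hfix : StPull t σ 𝔫 𝔫)
    (hϖ𝔫 : sskPi ϖ t ∈ 𝔫) (p : ↥(s18tInt A t)) :
    ∃ n ∈ 𝔫, σ • (p : F) - (p : F) ^ Q = (n : F) := by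
  obtain ⟨a, m, hm, hp⟩ := hres p
  obtain ⟨b, hb⟩ := hσ.base a
  set aP : ↥(s18tInt A t) := ⟨algebraMap A F a, s18tc_algebraMap_mem_int t a⟩ with haP
  set bP : ↥(s18tInt A t) := ⟨algebraMap A F b, s18tc_algebraMap_mem_int t b⟩ with hbP
  obtain ⟨c, hc⟩ := sub_dvd_pow_sub_pow (aP + m) aP Q
  rw [add_sub_cancel_left] at hc
  have hcF : ((aP : F) + (m : F)) ^ Q - (aP : F) ^ Q = (m : F) * (c : F) := by
    have := congrArg (Subtype.val : ↥(s18tInt A t) → F) hc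
    simpa using this
  set σm : ↥(s18tInt A t) := ⟨σ • (m : F), stx_int_of_smul hσ m.2⟩ with hσm
  have hσm𝔫 : σm ∈ 𝔫 := (stx_mem_of_smul hσ hfix m).mpr hm
  refine ⟨sskPi ϖ t * bP + σm - m * c, ?_, ?_⟩
  · exact 𝔫.sub_mem (𝔫.add_mem (𝔫.mul_mem_right _ hϖ𝔫) hσm𝔫) (𝔫.mul_mem_right _ hm)
  · have e1 : ((sskPi ϖ t * bP + σm - m * c : ↥(s18tInt A t)) : F) =
        algebraMap A F ϖ * algebraMap A F b + σ • (m : F) - (m : F) * (c : F) := by
      push_cast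
      rfl
    rw [e1, hp, smul_add, hb, map_add, map_mul, map_pow]
    have e2 : (algebraMap A F a + (m : F)) ^ Q = algebraMap A F a ^ Q + (m : F) * (c : F) := by
      have : (aP : F) = algebraMap A F a := rfl
      rw [this] at hcF
      linear_combination hcF
    rw [e2]
    ring

/-- `σ b ≡ b^Q mod 𝔫 P_𝔫` on `P_𝔫` -/
theorem stx_frob_loc [𝔫.IsPrime] (hσ : StFrob ϖ t V₁ V₂ Q σ) (hres : StRes t 𝔫)
    (hfix : StPull t σ 𝔫 𝔫) (hϖ𝔫 : sskPi ϖ t ∈ 𝔫) {b : F} (hb : b ∈ ssLocRing t 𝔫) :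
    SsInMax t 𝔫 (σ • b - b ^ Q) := by
  obtain ⟨s, hs, hsb⟩ := hb
  set p : ↥(s18tInt A t) := ⟨(s : F) * b, hsb⟩ with hp
  obtain ⟨np, hnp, hnpe⟩ := stx_frob_int hσ hres hfix hϖ𝔫 p
  obtain ⟨ns, hns, hnse⟩ := stx_frob_int hσ hres hfix hϖ𝔫 s
  set σs : ↥(s18tInt A t) := ⟨σ • (s : F), stx_int_of_smul hσ s.2⟩ with hσs
  have hσs𝔫 : σs ∉ 𝔫 := fun h => hs ((stx_mem_of_smul hσ hfix s).mp h)
  have hsQ : s ^ Q ∉ 𝔫 := fun h => hs (Ideal.IsPrime.mem_of_pow_mem inferInstance Q h)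
  refine ⟨σs * s ^ Q, fun h => (Ideal.IsPrime.mem_or_mem inferInstance h).elim hσs𝔫 hsQ,
    s ^ Q * np - p ^ Q * ns, 𝔫.sub_mem (𝔫.mul_mem_left _ hnp) (𝔫.mul_mem_left _ hns), ?_⟩
  have e1 : ((σs * s ^ Q : ↥(s18tInt A t)) : F) = σ • (s : F) * (s : F) ^ Q := by
    push_cast
    rfl
  have e2 : ((s ^ Q * np - p ^ Q * ns : ↥(s18tInt A t)) : F) =
      (s : F) ^ Q * (np : F) - ((s : F) * b) ^ Q * (ns : F) := by
    push_cast
    rfl
  have e3 : σ • ((s : F) * b) = σ • (s : F) * σ • b := smul_mul' σ _ _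
  have hpF : (p : F) = (s : F) * b := rfl
  rw [hpF, e3] at hnpe
  rw [e1, e2, ← hnpe, ← hnse]
  ring

end Fermat.Agent.ST
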