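import Mathlib
import Fermat.Agent.ST.Cross.Stab

/-!
# Program T (S35), leaf ST/Cross : the two sides of a crossing point in the S18/T setting

`V, V'` the two extensions of the Gauss valuation (`P_(ϖ) = V ∩ V'`), `𝔫` a closed point on the
component `V`.  `V` is discrete (`stx_exists_pow_mul_mem`), a localisation of `P` (`stx_loc`), and the
hypotheses `StxSide` of the abstract theorem hold for `B = P_𝔫` (`stx_side`).
-/

set_option autoImplicit false
set_option linter.unusedSectionVars false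
set_option linter.unusedVariables false

noncomputable section

namespace Fermat.Agent.ST

open Polynomial IntermediateField AlgebraicCurve Fermat.Agent.S18 Fermat.Agent.SS IsLocalRing

universe u

variable {A : Type*} [CommRing A] [IsDomain A] [IsDiscreteValuationRing A] [CharZero A]
variable {L : Type*} [Field L] [Algebra A L] [IsFractionRing A L]
variable {F : Type u} [Field F] [Algebra A F] [Algebra L F] [IsScalarTower A L F]
variable {ϖ : A}

/-- every element of `F` has a `ϖ`-power multiple in `P_(ϖ)` -/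
theorem stx_exists_pow_mul_mem (hϖ : Irreducible ϖ) (t : F) (ht : Transcendental L t)
    [FiniteDimensional L⟮t⟯ F] (x : F) :
    ∃ k : ℕ, algebraMap A F ϖ ^ k * x ∈ s18tIntLoc A t (C ϖ) (s18t_prime_C hϖ) := by
  obtain ⟨r, hr0, hr⟩ := s18tlg_exists_multiple_mem_int (A := A) ht x
  obtain ⟨k, r', hr', hrr'⟩ := WfDvdMonoid.max_power_factor hr0 (s18t_prime_C hϖ).irreducible
  refine ⟨k, (s18t_intLoc_iff hϖ t _).mpr ⟨r', hr', ?_⟩⟩
  have e : aeval t r' * (algebraMap A F ϖ ^ k * x) = aeval t r * x := by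
    rw [hrr', map_mul, map_pow, aeval_C]
    ring
  rw [e]
  exact hr

/-- a polynomial in `t` not divisible by `ϖ` is a unit of every valuation ring containing `P_(ϖ)` -/
theorem stx_val_aeval (hϖ : Irreducible ϖ) (t : F) (ht : Transcendental L t)
    (V : ValuationSubring F)
    (hV : ∀ x : F, x ∈ s18tIntLoc A t (C ϖ) (s18t_prime_C hϖ) → x ∈ V) (d : A[X])
    (hd : ¬ C ϖ ∣ d) : V.valuation (aeval t d) = 1 := by
  have hd0 : d ≠ 0 := fun h => hd (h ▸ dvd_zero _)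
  have ht0 : aeval t d ≠ 0 := fun h =>
    hd0 ((transcendental_iff.mp (s18tb_transcendental (A := A) ht)) d h)
  rw [stx_val_eq_one_iff V ht0]
  refine ⟨hV _ (s18tInt_le_intLoc hϖ t (s18ta_chart_le_int t (s18tb_aeval_mem_chart t d))),
    hV _ (s18tc_loc_le_intLoc t _ _ ?_)⟩
  rw [mem_s18tLoc]
  exact ⟨1, d, hd, by rw [inv_mul_cancel₀ ht0, map_one]⟩

/-- `V` is a localisation of `P` -/
theorem stx_loc (hϖ : Irreducible ϖ) (t : F) (ht : Transcendental L t) [FiniteDimensional L⟮t⟯ F]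
    (V V' : ValuationSubring F)
    (hmem : ∀ x : F, x ∈ s18tIntLoc A t (C ϖ) (s18t_prime_C hϖ) ↔ x ∈ V ∧ x ∈ V')
    (hunif' : S18IsUnif V' (algebraMap A F ϖ)) (u' : F) (hu' : V'.valuation u' < 1)
    (hu'1 : V.valuation u' = 1) (y : F) (hy : y ∈ V) :
    ∃ a b : F, a ∈ s18tInt A t ∧ b ∈ s18tInt A t ∧ V.valuation b = 1 ∧ y * b = a := by
  obtain ⟨k, hk⟩ := stx_exists_pow_mul_mem hϖ t ht y
  have hk' : algebraMap A F ϖ ^ k * y ∈ V' := ((hmem _).mp hk).2
  have hyu : y * u' ^ k ∈ s18tIntLoc A t (C ϖ) (s18t_prime_C hϖ) := by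
    rw [hmem]
    constructor
    · rw [← V.valuation_le_one_iff, map_mul, map_pow, hu'1, one_pow, mul_one,
        V.valuation_le_one_iff]
      exact hy
    · rw [← V'.valuation_le_one_iff] at hk' ⊢
      refine le_trans ?_ hk'
      rw [map_mul, map_mul, map_pow, map_pow, mul_comm]
      exact mul_le_mul_left (pow_le_pow_left₀ zero_le (hunif'.2 u' hu') k) _
  have hu'mem : u' ∈ s18tIntLoc A t (C ϖ) (s18t_prime_C hϖ) := by
    rw [hmem]
    exact ⟨(V.valuation_le_one_iff _).mp hu'1.le, (V'.valuation_le_one_iff _).mp hu'.le⟩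
  obtain ⟨d, hd, hdy⟩ := (s18t_intLoc_iff hϖ t _).mp hyu
  obtain ⟨d', hd', hdu⟩ := (s18t_intLoc_iff hϖ t _).mp hu'mem
  have hVle : ∀ x : F, x ∈ s18tIntLoc A t (C ϖ) (s18t_prime_C hϖ) → x ∈ V :=
    fun x hx => ((hmem x).mp hx).1
  have hd'P : aeval t d' ∈ s18tInt A t := s18ta_chart_le_int t (s18tb_aeval_mem_chart t d')
  refine ⟨aeval t d * (y * u' ^ k) * aeval t d' ^ k, aeval t d * (aeval t d' * u') ^ k,
    Subring.mul_mem _ hdy (Subring.pow_mem _ hd'P k),
    Subring.mul_mem _ (s18ta_chart_le_int t (s18tb_aeval_mem_chart t d)) (Subring.pow_mem _ hdu k),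
    ?_, by ring⟩
  rw [map_mul, map_pow, map_mul, stx_val_aeval hϖ t ht V hVle d hd,
    stx_val_aeval hϖ t ht V hVle d' hd', hu'1, one_mul, one_mul, one_pow]

/-- `P_𝔫 ⊆ V` for a closed point `𝔫` on the component `V` -/
theorem stx_loc_le (hϖ : Irreducible ϖ) (t : F) (V V' : ValuationSubring F)
    (hmem : ∀ x : F, x ∈ s18tIntLoc A t (C ϖ) (s18t_prime_C hϖ) ↔ x ∈ V ∧ x ∈ V')
    (𝔫 : Ideal ↥(s18tInt A t)) [𝔫.IsPrime] (hon : StOn V t 𝔫) :
    ssLocRing t 𝔫 ≤ V.toSubring :=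
  ssl_locRing_le t 𝔫 ⟨fun x hx => ((hmem x).mp (s18tInt_le_intLoc hϖ t hx)).1,
    fun p hp => hon p ((ValuationSubring.mem_nonunits_iff _).mpr hp)⟩

/-- THE SIDE DATA of the abstract theorem for `B = P_𝔫` -/
theorem stx_side (hϖ : Irreducible ϖ) (t : F) (ht : Transcendental L t) [FiniteDimensional L⟮t⟯ F]
    {V₁ V₂ : ValuationSubring F} {Q : ℕ} {σ : SemilinearAut L F} (hσ : StFrob ϖ t V₁ V₂ Q σ)
    (𝔫 : Ideal ↥(s18tInt A t)) [𝔫.IsPrime] (hfix : StPull t σ 𝔫 𝔫)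
    (V V' : ValuationSubring F)
    (hmem : ∀ x : F, x ∈ s18tIntLoc A t (C ϖ) (s18t_prime_C hϖ) ↔ x ∈ V ∧ x ∈ V')
    (hunif : S18IsUnif V (algebraMap A F ϖ)) (hunif' : S18IsUnif V' (algebraMap A F ϖ))
    (u' : F) (hu' : V'.valuation u' < 1) (hu'1 : V.valuation u' = 1)
    (hon : StOn V t 𝔫) (hsV : ∀ x : F, σ • x ∈ V ↔ x ∈ V)
    (w : F) (hw : SsInMax t 𝔫 w) (hwv : V.valuation w = 1)
    (hgen : ∀ x : F, SsInMax t 𝔫 x →
      ∃ c p : F, SsInLoc t 𝔫 c ∧ SsInLoc t 𝔫 p ∧ V.valuation p < 1 ∧ x = c * w + p) :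
    StxSide (ssLocRing t 𝔫) V (algebraMap A F ϖ) w (SemilinearAut.toRingAut σ) := by
  have hinj := ssl_algebraMap_injective A L F
  obtain ⟨e, e', hee', hσϖ⟩ := stx_smul_pi hϖ hσ
  refine
    { le := stx_loc_le hϖ t V V' hmem 𝔫 hon
      pi_mem := ssl_int_le_locRing t 𝔫 (s18tc_algebraMap_mem_int t ϖ)
      pi_ne := fun h => hϖ.ne_zero (hinj (by rw [h, map_zero]))
      pi_lt := hunif.1
      pi_unif := hunif.2
      disc := fun x => ?_
      loc := fun y hy => ?_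
      w_non := (stx_non_loc_iff w).mpr hw
      w_val := hwv
      gen := fun x hx => ?_
      sB := fun x => stx_loc_iff hσ hfix x
      sV := hsV
      s_pi := ⟨algebraMap A F e, ssl_int_le_locRing t 𝔫 (s18tc_algebraMap_mem_int t e), ?_, hσϖ⟩ }
  · obtain ⟨k, hk⟩ := stx_exists_pow_mul_mem hϖ t ht x
    exact ⟨k, ((hmem _).mp hk).1⟩
  · obtain ⟨a, b, ha, hb, hbv, hab⟩ := stx_loc hϖ t ht V V' hmem hunif' u' hu' hu'1 y hy
    exact ⟨a, b, ssl_int_le_locRing t 𝔫 ha, ssl_int_le_locRing t 𝔫 hb, hbv, hab⟩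
  · exact hgen x ((stx_non_loc_iff x).mp hx)
  · have : (algebraMap A F e)⁻¹ = algebraMap A F e' := by
      apply inv_eq_of_mul_eq_one_right
      rw [← map_mul, hee', map_one]
    rw [this]
    exact ssl_int_le_locRing t 𝔫 (s18tc_algebraMap_mem_int t e')

end Fermat.Agent.ST
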